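import Mathlib

/-!
# Freeness of maximal-depth modules over regular local rings

A finitely generated module over a regular local ring `A` admitting a regular sequence of
length `dim A` inside the maximal ideal is free.
-/

set_option autoImplicit false

universe u

open IsLocalRing RingTheory.Sequence CategoryTheory Abelian

namespace Fermat.Agent.H5

/-- Prime avoidance: if the maximal ideal contains an `N`-regular element, then it contains an
`N`-regular element outside the square of the maximal ideal. -/
theorem exists_regular_notMem_sq {A : Type u} [CommRing A] [IsLocalRing A] [IsNoetherianRing A]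
    {N : Type u} [AddCommGroup N] [Module A N] [Module.Finite A N] [Nontrivial N]
    {x : A} (hxm : x ∈ maximalIdeal A) (hx : IsSMulRegular N x) :
    ∃ y ∈ maximalIdeal A, y ∉ maximalIdeal A ^ 2 ∧ IsSMulRegular N y := by
  classical
  by_contra hcon
  push Not at hcon
  have hfin := associatedPrimes.finite A N
  let s : Finset (Ideal A) := insert (maximalIdeal A ^ 2) hfin.toFinset
  have hsub : ((maximalIdeal A : Ideal A) : Set A) ⊆
      ⋃ i ∈ (↑s : Set (Ideal A)), ((id i : Ideal A) : Set A) := by
    intro y hy
    by_cases h2 : y ∈ maximalIdeal A ^ 2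
    · simp only [Set.mem_iUnion]
      exact ⟨_, by simp [s], h2⟩
    · have hnr : ¬ IsSMulRegular N y := fun h => hcon y hy h2 h
      have hmem : y ∈ ⋃ p ∈ associatedPrimes A N, (p : Set A) := by
        rw [biUnion_associatedPrimes_eq_compl_regular]
        exact hnr
      simp only [Set.mem_iUnion] at hmem ⊢
      obtain ⟨p, hp, hyp⟩ := hmem
      exact ⟨p, by simp [s, hp], hyp⟩
  rw [Ideal.subset_union_prime (maximalIdeal A ^ 2) (maximalIdeal A ^ 2)] at hsub
  · obtain ⟨i, hi, hle⟩ := hsub
    simp only [s, Finset.mem_insert, Set.Finite.mem_toFinset] at hi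
    rcases hi with rfl | hi
    · -- `m ≤ m ^ 2`, so `m = ⊥` by Nakayama
      have hbot : maximalIdeal A = ⊥ := by
        refine Submodule.eq_bot_of_le_smul_of_le_jacobson_bot (maximalIdeal A) (maximalIdeal A)
          (IsNoetherian.noetherian _) ?_ (maximalIdeal_le_jacobson _)
        simpa [pow_two] using hle
      have hx0 : x = 0 := by simpa [hbot] using hxm
      subst hx0
      obtain ⟨a, b, hab⟩ := exists_pair_ne N
      exact hab (hx (by simp))
    · -- `m ≤ p` for an associated prime `p`
      have hxp : x ∈ ⋃ p ∈ associatedPrimes A N, (p : Set A) := by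
        simp only [Set.mem_iUnion]
        exact ⟨i, hi, hle hxm⟩
      rw [biUnion_associatedPrimes_eq_compl_regular] at hxp
      exact hxp hx
  · intro i hi h1 _
    simp only [s, Finset.mem_insert, Set.Finite.mem_toFinset] at hi
    rcases hi with rfl | hi
    · exact absurd rfl h1
    · exact IsAssociatedPrime.isPrime hi

/-- Quotienting a regular local ring by an element of `m \ m²` gives a regular local ring whose
maximal ideal needs one generator fewer. -/
theorem isRegularLocalRing_quotient_span_singleton {A : Type u} [CommRing A]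
    [IsRegularLocalRing A] {y : A} (hym : y ∈ maximalIdeal A) (hy2 : y ∉ maximalIdeal A ^ 2)
    {n : ℕ} (hn : (maximalIdeal A).spanFinrank = n + 1) [IsLocalRing (A ⧸ Ideal.span {y})] :
    IsRegularLocalRing (A ⧸ Ideal.span {y}) ∧
      (maximalIdeal (A ⧸ Ideal.span {y})).spanFinrank = n := by
  classical
  obtain ⟨s, hs_card, hs_span⟩ := Submodule.FG.exists_span_finset_card_eq_spanFinrank
    (p := maximalIdeal A) (IsNoetherian.noetherian _)
  have hs_mem : ∀ i ∈ s, i ∈ maximalIdeal A := fun i hi => by
    rw [← hs_span]; exact Submodule.subset_span hi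
  have hy_span : y ∈ Submodule.span A (s : Set A) := by rw [hs_span]; exact hym
  obtain ⟨f, -, hf⟩ := Submodule.mem_span_finset.mp hy_span
  -- some coefficient is a unit
  have hex : ∃ i ∈ s, f i ∉ maximalIdeal A := by
    by_contra hcon
    push Not at hcon
    apply hy2
    rw [← hf, pow_two]
    refine Ideal.sum_mem _ fun i hi => ?_
    rw [smul_eq_mul]
    exact Ideal.mul_mem_mul (hcon i hi) (hs_mem i hi)
  obtain ⟨i, his, hfi⟩ := hex
  have hunit : IsUnit (f i) := by
    by_contra h
    exact hfi ((mem_maximalIdeal _).mpr h)
  obtain ⟨u, hu⟩ := hunit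
  -- `i` is in the span of `y` and the other generators
  have hi_mem : i ∈ Ideal.span (insert y ((s.erase i : Finset A) : Set A)) := by
    have hsum : ∑ a ∈ s, f a • a = f i • i + ∑ a ∈ s.erase i, f a • a := by
      rw [← Finset.add_sum_erase s _ his]
    have hi_eq : i = (↑u⁻¹ : A) * (y - ∑ a ∈ s.erase i, f a • a) := by
      rw [← hf, hsum, add_sub_cancel_right, smul_eq_mul, ← hu, ← mul_assoc, Units.inv_mul,
        one_mul]
    have key : (↑u⁻¹ : A) * (y - ∑ a ∈ s.erase i, f a • a) ∈
        Ideal.span (insert y ((s.erase i : Finset A) : Set A)) := by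
      refine Ideal.mul_mem_left _ _ (Ideal.sub_mem _ (Ideal.subset_span (Set.mem_insert _ _)) ?_)
      refine Ideal.sum_mem _ fun a ha => ?_
      rw [smul_eq_mul]
      exact Ideal.mul_mem_left _ _ (Ideal.subset_span (Set.mem_insert_of_mem _ ha))
    exact (congrArg (· ∈ Ideal.span (insert y ((s.erase i : Finset A) : Set A))) hi_eq).mpr key
  have hm_eq : maximalIdeal A = Ideal.span (insert y ((s.erase i : Finset A) : Set A)) := by
    apply le_antisymm
    · rw [← hs_span]
      refine Submodule.span_le.mpr fun a ha => ?_
      by_cases hai : a = i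
      · rw [hai]; exact hi_mem
      · exact Ideal.subset_span (Set.mem_insert_of_mem _ (Finset.mem_erase.mpr ⟨hai, ha⟩))
    · refine Ideal.span_le.mpr fun a ha => ?_
      rcases ha with rfl | ha
      · exact hym
      · exact hs_mem a (Finset.mem_of_mem_erase ha)
  -- the maximal ideal of the quotient
  have hmq : maximalIdeal (A ⧸ Ideal.span {y}) =
      Ideal.span ((Ideal.Quotient.mk (Ideal.span {y})) '' ((s.erase i : Finset A) : Set A)) := by
    rw [← map_maximalIdeal_of_surjective (Ideal.Quotient.mk (Ideal.span {y}))
      Ideal.Quotient.mk_surjective, hm_eq, Ideal.map_span, Set.image_insert_eq]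
    have h0 : (Ideal.Quotient.mk (Ideal.span {y})) y = 0 :=
      Ideal.Quotient.eq_zero_iff_mem.mpr (Ideal.mem_span_singleton_self y)
    rw [h0]
    apply le_antisymm
    · refine Ideal.span_le.mpr fun a ha => ?_
      rcases ha with rfl | ha
      · exact Ideal.zero_mem _
      · exact Ideal.subset_span ha
    · exact Ideal.span_mono (Set.subset_insert _ _)
  have hle : (maximalIdeal (A ⧸ Ideal.span {y})).spanFinrank ≤ n := by
    rw [hmq]
    refine (Submodule.spanFinrank_span_le_ncard_of_finite
      ((Finset.finite_toSet _).image _)).trans ?_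
    refine (Set.ncard_image_le (Finset.finite_toSet _)).trans ?_
    rw [Set.ncard_coe_finset, Finset.card_erase_of_mem his, hs_card, hn]
    rfl
  -- the dimension of the quotient
  have hdimA : ringKrullDim A = ((n + 1 : ℕ) : WithBot ℕ∞) := by
    rw [← IsRegularLocalRing.spanFinrank_maximalIdeal, hn]
  have hdim : ringKrullDim A ≤ ringKrullDim (A ⧸ Ideal.span {y}) + 1 := by
    have h := ringKrullDim_le_ringKrullDim_quotient_add_card ({y} : Finset A) (by
      intro a ha
      rw [Finset.coe_singleton, Set.mem_singleton_iff] at ha
      rw [ha, ringJacobson_eq_maximalIdeal]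
      exact hym)
    rw [Finset.coe_singleton, Finset.card_singleton] at h
    exact_mod_cast h
  have hdimq : ((n : ℕ) : WithBot ℕ∞) ≤ ringKrullDim (A ⧸ Ideal.span {y}) := by
    rw [hdimA] at hdim
    generalize ringKrullDim (A ⧸ Ideal.span {y}) = d at hdim ⊢
    induction d with
    | bot => simp at hdim
    | coe e =>
      have h2 : ((n : ℕ∞) + 1) ≤ e + 1 := by exact_mod_cast hdim
      have h3 : (n : ℕ∞) ≤ e := (ENat.add_le_add_iff_right (by simp)).mp h2
      exact_mod_cast h3
  have hreg : IsRegularLocalRing (A ⧸ Ideal.span {y}) :=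
    IsRegularLocalRing.of_spanFinrank_maximalIdeal_le _
      ((by exact_mod_cast hle : ((maximalIdeal (A ⧸ Ideal.span {y})).spanFinrank :
        WithBot ℕ∞) ≤ (n : ℕ)).trans hdimq)
  refine ⟨hreg, le_antisymm hle ?_⟩
  have h1 := hreg.spanFinrank_maximalIdeal
  rw [← h1] at hdimq
  exact_mod_cast hdimq

/-- Depth drops by exactly one modulo any regular element: if `N` has a regular sequence of
length `n + 1` in the maximal ideal and `y` is an `N`-regular element of the maximal ideal, then
`N ⧸ yN` has a regular sequence of length `n` in the maximal ideal. -/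
theorem exists_isRegular_quotSMulTop {A : Type u} [CommRing A] [IsLocalRing A]
    [IsNoetherianRing A] {N : Type u} [AddCommGroup N] [Module A N] [Module.Finite A N]
    {rs : List A} (hrs : ∀ r ∈ rs, r ∈ maximalIdeal A) (hreg : IsRegular N rs)
    {y : A} (hym : y ∈ maximalIdeal A) (hy : IsSMulRegular N y) {n : ℕ}
    (hlen : rs.length = n + 1) :
    ∃ rs' : List A, rs'.length = n ∧ (∀ r ∈ rs', r ∈ maximalIdeal A) ∧
      IsRegular (QuotSMulTop y N) rs' := by
  haveI : Nontrivial N := hreg.nontrivial
  haveI : Nontrivial (QuotSMulTop y N) := nontrivial_quotSMulTop_of_mem_maximalIdeal N hym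
  let K : ModuleCat.{u} A := ModuleCat.of A (A ⧸ maximalIdeal A)
  have hsupp : Module.support A K = PrimeSpectrum.zeroLocus (maximalIdeal A : Set A) := by
    show Module.support A (A ⧸ maximalIdeal A) = _
    rw [Module.support_eq_zeroLocus, Ideal.annihilator_quotient]
  have smul_lt : maximalIdeal A • (⊤ : Submodule A N) < ⊤ :=
    lt_top_iff_ne_top.mpr (Submodule.top_ne_ideal_smul_of_le_jacobson_annihilator
      (maximalIdeal_le_jacobson _)).symm
  have smul_lt' : maximalIdeal A • (⊤ : Submodule A (QuotSMulTop y N)) < ⊤ :=
    lt_top_iff_ne_top.mpr (Submodule.top_ne_ideal_smul_of_le_jacobson_annihilator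
      (maximalIdeal_le_jacobson _)).symm
  have hext := ModuleCat.subsingleton_ext_of_exists_isRegular (maximalIdeal A) K hsupp.subset
    (ModuleCat.of A N) smul_lt rs hrs hreg
  have hy' : IsSMulRegular (ModuleCat.of A N) y := hy
  have h_ext' : ∀ i < n, Subsingleton (Ext K (ModuleCat.of A (QuotSMulTop y N)) i) := by
    intro i hi
    have zero1 := AddCommGrpCat.isZero_of_iff_subsingleton.mpr (hext i (by omega))
    have zero2 := AddCommGrpCat.isZero_of_iff_subsingleton.mpr (hext (i + 1) (by omega))
    exact AddCommGrpCat.subsingleton_of_isZero <| ShortComplex.Exact.isZero_of_both_zeros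
      ((Ext.covariant_sequence_exact₃' K hy'.smulShortComplex_shortExact) i (i + 1) rfl)
      (zero1.eq_zero_of_src _) (zero2.eq_zero_of_tgt _)
  exact ModuleCat.exists_isRegular_of_exists_subsingleton_ext (maximalIdeal A) n
    (ModuleCat.of A (QuotSMulTop y N)) smul_lt' K hsupp h_ext'

/-- **Maximal depth modules over regular local rings are free** (inductive form). -/
theorem free_of_isRegular_aux (n : ℕ) :
    ∀ (A : Type u) [CommRing A] [IsRegularLocalRing A],
      (maximalIdeal A).spanFinrank = n →
      ∀ (N : Type u) [AddCommGroup N] [Module A N] [Module.Finite A N] (rs : List A),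
        rs.length = n → (∀ r ∈ rs, r ∈ maximalIdeal A) → IsRegular N rs → Module.Free A N := by
  induction n with
  | zero =>
    intro A _ _ hn N _ _ _ rs _ _ _
    have hbot : maximalIdeal A = ⊥ :=
      (Submodule.spanFinrank_eq_zero_iff_eq_bot (IsNoetherian.noetherian _)).mp hn
    have hfield : IsField A := isField_iff_maximalIdeal_eq.mpr hbot
    letI := hfield.toField
    exact Module.Free.of_divisionRing A N
  | succ n ih =>
    intro A _ _ hn N _ _ _ rs hlen hrs hreg
    haveI : Nontrivial N := hreg.nontrivial
    -- the first element of the sequence is a regular element of the maximal ideal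
    obtain ⟨x, rs', rfl⟩ : ∃ x rs', rs = x :: rs' := by
      cases rs with
      | nil => simp at hlen
      | cons x rs' => exact ⟨x, rs', rfl⟩
    have hx : IsSMulRegular N x := ((isRegular_cons_iff N x rs').mp hreg).1
    have hxm : x ∈ maximalIdeal A := hrs x List.mem_cons_self
    obtain ⟨y, hym, hy2, hy⟩ := exists_regular_notMem_sq hxm hx
    -- the quotient ring
    haveI : Nontrivial (A ⧸ Ideal.span {y}) :=
      Ideal.Quotient.nontrivial_iff.mpr (fun h => by
        have h1 : (1 : A) ∈ Ideal.span {y} := by rw [h]; trivial
        have h2 : Ideal.span {y} ≤ maximalIdeal A :=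
          (Ideal.span_singleton_le_iff_mem _).mpr hym
        exact (Ideal.ne_top_iff_one _).mp (Ideal.IsMaximal.ne_top inferInstance) (h2 h1))
    haveI : IsLocalRing (A ⧸ Ideal.span {y}) :=
      IsLocalRing.of_surjective' (Ideal.Quotient.mk (Ideal.span {y})) Ideal.Quotient.mk_surjective
    obtain ⟨hregq, hnq⟩ := isRegularLocalRing_quotient_span_singleton hym hy2 hn
    -- the regular sequence on the quotient module
    obtain ⟨rs'', hlen'', hrs'', hreg''⟩ := exists_isRegular_quotSMulTop hrs hreg hym hy hlen
    have hreg_y : IsRegular N (y :: rs'') := IsRegular.cons hy hreg''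
    have hregq' := ((isRegular_cons_iff' N y rs'').mp hreg_y).2
    haveI : Module.Finite (A ⧸ Ideal.span {y}) (QuotSMulTop y N) :=
      Module.Finite.of_restrictScalars_finite A (A ⧸ Ideal.span {y}) (QuotSMulTop y N)
    have hfree : Module.Free (A ⧸ Ideal.span {y}) (QuotSMulTop y N) := by
      refine ih (A ⧸ Ideal.span {y}) hnq (QuotSMulTop y N)
        (rs''.map (Ideal.Quotient.mk (Ideal.span {y}))) (by simpa using hlen'') ?_ hregq'
      intro r hr
      obtain ⟨a, ha, rfl⟩ := List.mem_map.mp hr
      rw [← map_maximalIdeal_of_surjective (Ideal.Quotient.mk (Ideal.span {y}))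
        Ideal.Quotient.mk_surjective]
      exact Ideal.mem_map_of_mem _ (hrs'' a ha)
    haveI : Module.FinitePresentation A N := Module.finitePresentation_of_finite A N
    exact (Module.free_quotSMulTop_iff_free A N
      (by rw [Ideal.jacobson_bot, ringJacobson_eq_maximalIdeal]; exact hym) hy).mp hfree

/-- **Maximal depth modules over regular local rings are free**: a finitely generated module
over a regular local ring `A` having a regular sequence in the maximal ideal whose length is the
minimal number of generators of the maximal ideal is free. -/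
theorem free_of_isRegular {A : Type u} [CommRing A] [IsRegularLocalRing A]
    {N : Type u} [AddCommGroup N] [Module A N] [Module.Finite A N] {rs : List A}
    (hlen : rs.length = (maximalIdeal A).spanFinrank) (hrs : ∀ r ∈ rs, r ∈ maximalIdeal A)
    (hreg : IsRegular N rs) : Module.Free A N :=
  free_of_isRegular_aux _ A rfl N rs hlen hrs hreg

end Fermat.Agent.H5
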