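import Mathlib
import Fermat.Agent.Lib.H5.RegularFree

/-!
# Power series rings over a discrete valuation ring are regular local rings

We show that the variables together with a uniformizer form a regular sequence generating the
maximal ideal of `MvPowerSeries (Fin r) R`.
-/

set_option autoImplicit false

universe u

namespace Fermat.Agent.H5

section

variable (R : Type u) [CommRing R] (r : ℕ)

/-- The ideal of power series all of whose coefficients vanish at the exponents supported away
from the first `i` variables. It is the ideal generated by the first `i` variables. -/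
def varIdeal (i : ℕ) : Ideal (MvPowerSeries (Fin r) R) where
  carrier := {f | ∀ e : Fin r →₀ ℕ, (∀ j : Fin r, j.val < i → e j = 0) →
    MvPowerSeries.coeff e f = 0}
  zero_mem' := by
    intro e _
    simp
  add_mem' := by
    intro f g hf hg e he
    simp [hf e he, hg e he]
  smul_mem' := by
    intro c f hf e he
    classical
    rw [smul_eq_mul, MvPowerSeries.coeff_mul]
    refine Finset.sum_eq_zero fun p hp => ?_
    have hp' : p.1 + p.2 = e := Finset.HasAntidiagonal.mem_antidiagonal.mp hp
    have h0 : MvPowerSeries.coeff p.2 f = 0 := hf p.2 (fun j hj => by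
      have h1 := he j hj
      rw [← hp'] at h1
      have h2 : p.1 j + p.2 j = 0 := by simpa using h1
      omega)
    rw [h0, mul_zero]

variable {R r}

theorem mem_varIdeal {i : ℕ} {f : MvPowerSeries (Fin r) R} :
    f ∈ varIdeal R r i ↔ ∀ e : Fin r →₀ ℕ, (∀ j : Fin r, j.val < i → e j = 0) →
      MvPowerSeries.coeff e f = 0 := Iff.rfl

theorem X_mem_varIdeal [Nontrivial R] {i : ℕ} (j : Fin r) (hj : j.val < i) :
    (MvPowerSeries.X j : MvPowerSeries (Fin r) R) ∈ varIdeal R r i := by
  classical
  intro e he
  rw [MvPowerSeries.coeff_X, if_neg]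
  intro h
  have h1 := he j hj
  rw [h] at h1
  simp at h1

theorem varIdeal_le_span [Nontrivial R] (i : ℕ) (hi : i ≤ r) :
    varIdeal R r i ≤ Ideal.span {f | ∃ j : Fin r, j.val < i ∧ f = MvPowerSeries.X j} := by
  classical
  induction i with
  | zero =>
    intro f hf
    have h0 : f = 0 := by
      ext e
      simpa using hf e (fun j hj => absurd hj (Nat.not_lt_zero _))
    rw [h0]
    exact Ideal.zero_mem _
  | succ i ih =>
    intro f hf
    let k : Fin r := ⟨i, hi⟩
    let g : MvPowerSeries (Fin r) R := fun e => MvPowerSeries.coeff (e + Finsupp.single k 1) f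
    have hXg : ∀ e, MvPowerSeries.coeff e (MvPowerSeries.X k * g) =
        if e k = 0 then 0 else MvPowerSeries.coeff e f := by
      intro e
      rw [MvPowerSeries.X_def, MvPowerSeries.coeff_monomial_mul]
      by_cases h : e k = 0
      · rw [if_neg, if_pos h]
        intro hle
        have h1 := hle k
        simp [h] at h1
      · have hle : Finsupp.single k 1 ≤ e := by
          intro j
          by_cases hjk : j = k
          · subst hjk
            simp only [Finsupp.single_eq_same]
            omega
          · simp [Finsupp.single_eq_of_ne hjk]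
        rw [if_pos hle, if_neg h, one_mul]
        show MvPowerSeries.coeff (e - Finsupp.single k 1 + Finsupp.single k 1) f = _
        rw [tsub_add_cancel_of_le hle]
    have h1 : f - MvPowerSeries.X k * g ∈ varIdeal R r i := by
      intro e he
      rw [map_sub, hXg]
      by_cases h : e k = 0
      · rw [if_pos h, sub_zero]
        apply hf e
        intro j hj
        rcases Nat.lt_succ_iff_lt_or_eq.mp hj with hlt | heq
        · exact he j hlt
        · have hjk : j = k := Fin.ext heq
          rw [hjk]
          exact h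
      · rw [if_neg h, sub_self]
    have h2 := ih (Nat.le_of_succ_le hi) h1
    have h3 : f = (f - MvPowerSeries.X k * g) + MvPowerSeries.X k * g := by ring
    rw [h3]
    refine Ideal.add_mem _ (Ideal.span_mono ?_ h2)
      (Ideal.mul_mem_right _ _ (Ideal.subset_span ⟨k, Nat.lt_succ_self i, rfl⟩))
    rintro _ ⟨j, hj, rfl⟩
    exact ⟨j, Nat.lt_succ_of_lt hj, rfl⟩

theorem varIdeal_eq_span [Nontrivial R] (i : ℕ) (hi : i ≤ r) :
    varIdeal R r i = Ideal.span {f | ∃ j : Fin r, j.val < i ∧ f = MvPowerSeries.X j} := by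
  refine le_antisymm (varIdeal_le_span i hi) (Ideal.span_le.mpr ?_)
  rintro _ ⟨j, hj, rfl⟩
  exact X_mem_varIdeal j hj

theorem mem_varIdeal_of_X_mul_mem {i : ℕ} (hi : i < r) {f : MvPowerSeries (Fin r) R}
    (h : MvPowerSeries.X ⟨i, hi⟩ * f ∈ varIdeal R r i) : f ∈ varIdeal R r i := by
  intro e he
  have h1 := h (Finsupp.single ⟨i, hi⟩ 1 + e) (fun j hj => by
    have hne : (⟨i, hi⟩ : Fin r) ≠ j := fun hij => by
      rw [← hij] at hj
      exact lt_irrefl _ hj
    simp [he j hj, Finsupp.single_eq_of_ne' hne])
  rwa [MvPowerSeries.X_def, MvPowerSeries.coeff_add_monomial_mul, one_mul] at h1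

theorem mem_varIdeal_of_C_mul_mem [NoZeroDivisors R] {i : ℕ} {a : R} (ha : a ≠ 0)
    {f : MvPowerSeries (Fin r) R} (h : MvPowerSeries.C a * f ∈ varIdeal R r i) :
    f ∈ varIdeal R r i := by
  intro e he
  have h1 := h e he
  rw [MvPowerSeries.coeff_C_mul] at h1
  exact (mul_eq_zero.mp h1).resolve_left ha

end

section Seq

open IsLocalRing RingTheory.Sequence

variable (R : Type u) [CommRing R] (r : ℕ)

/-- The sequence of the variables followed by the constant `ϖ`. -/
noncomputable def varSeq (ϖ : R) : List (MvPowerSeries (Fin r) R) :=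
  List.ofFn (fun j : Fin r => (MvPowerSeries.X j : MvPowerSeries (Fin r) R)) ++
    [MvPowerSeries.C ϖ]

variable {R r}

@[simp]
theorem varSeq_length (ϖ : R) : (varSeq R r ϖ).length = r + 1 := by
  simp [varSeq]

theorem ofList_take_ofFn_X [Nontrivial R] (i : ℕ) (hi : i ≤ r) :
    Ideal.ofList ((List.ofFn (fun j : Fin r =>
      (MvPowerSeries.X j : MvPowerSeries (Fin r) R))).take i) = varIdeal R r i := by
  rw [varIdeal_eq_span i hi]
  have hset : {a | a ∈ (List.ofFn (fun j : Fin r =>
      (MvPowerSeries.X j : MvPowerSeries (Fin r) R))).take i} =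
      {f | ∃ j : Fin r, j.val < i ∧ f = MvPowerSeries.X j} := by
    ext a
    simp only [Set.mem_ofPred_eq, List.mem_take_iff_getElem, List.length_ofFn, List.getElem_ofFn]
    constructor
    · rintro ⟨m, hm, rfl⟩
      exact ⟨⟨m, by omega⟩, by simp; omega, rfl⟩
    · rintro ⟨j, hj, rfl⟩
      exact ⟨j.val, by simp; omega, rfl⟩
  exact congrArg Ideal.span hset

theorem ofList_ofFn_X [Nontrivial R] :
    Ideal.ofList (List.ofFn (fun j : Fin r =>
      (MvPowerSeries.X j : MvPowerSeries (Fin r) R))) = varIdeal R r r := by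
  have h := ofList_take_ofFn_X (R := R) r (le_refl r)
  rwa [List.take_of_length_le (by simp)] at h

theorem isWeaklyRegular_varSeq [IsDomain R] {ϖ : R} (hϖ : ϖ ≠ 0) :
    IsWeaklyRegular (MvPowerSeries (Fin r) R) (varSeq R r ϖ) := by
  rw [varSeq, isWeaklyRegular_append_iff]
  constructor
  · rw [isWeaklyRegular_iff]
    intro i hi
    have hi' : i < r := by simpa using hi
    rw [isSMulRegular_quotient_iff_mem_of_smul_mem]
    intro f hf
    rw [smul_eq_mul, Ideal.mul_top, ofList_take_ofFn_X i hi'.le] at hf ⊢
    rw [List.getElem_ofFn, smul_eq_mul] at hf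
    exact mem_varIdeal_of_X_mul_mem hi' hf
  · rw [isWeaklyRegular_singleton_iff, isSMulRegular_quotient_iff_mem_of_smul_mem]
    intro f hf
    rw [smul_eq_mul, Ideal.mul_top, ofList_ofFn_X] at hf ⊢
    rw [smul_eq_mul] at hf
    exact mem_varIdeal_of_C_mul_mem hϖ hf

theorem maximalIdeal_eq_ofList_varSeq [IsLocalRing R] {ϖ : R}
    (hϖ : maximalIdeal R = Ideal.span {ϖ}) :
    maximalIdeal (MvPowerSeries (Fin r) R) = Ideal.ofList (varSeq R r ϖ) := by
  apply le_antisymm
  · intro f hf
    have hc : MvPowerSeries.constantCoeff f ∈ maximalIdeal R := by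
      rw [mem_maximalIdeal, mem_nonunits_iff] at hf ⊢
      exact fun h => hf (MvPowerSeries.isUnit_iff_constantCoeff.mpr h)
    rw [hϖ, Ideal.mem_span_singleton] at hc
    obtain ⟨c, hc⟩ := hc
    have h1 : f - MvPowerSeries.C (MvPowerSeries.constantCoeff f) ∈ varIdeal R r r := by
      intro e he
      have he0 : e = 0 := by
        ext j
        exact he j j.isLt
      subst he0
      simp
    rw [← ofList_ofFn_X] at h1
    have h2 : f = (f - MvPowerSeries.C (MvPowerSeries.constantCoeff f)) +
        MvPowerSeries.C ϖ * MvPowerSeries.C c := by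
      rw [← map_mul, ← hc]
      ring
    rw [h2, varSeq]
    refine Ideal.add_mem _ (Ideal.span_mono ?_ h1) (Ideal.mul_mem_right _ _
      (Ideal.subset_span ?_))
    · intro a ha
      exact List.mem_append_left _ ha
    · exact List.mem_append_right _ (List.mem_singleton.mpr rfl)
  · refine Ideal.span_le.mpr fun a ha => ?_
    have ha' : a ∈ varSeq R r ϖ := ha
    rw [varSeq, List.mem_append, List.mem_ofFn, List.mem_singleton] at ha'
    rw [SetLike.mem_coe, mem_maximalIdeal, mem_nonunits_iff,
      MvPowerSeries.isUnit_iff_constantCoeff]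
    rcases ha' with ⟨j, rfl⟩ | rfl
    · rw [MvPowerSeries.constantCoeff_X]
      exact not_isUnit_zero
    · rw [MvPowerSeries.constantCoeff_C]
      have h1 : ϖ ∈ maximalIdeal R := by
        rw [hϖ]
        exact Ideal.mem_span_singleton_self ϖ
      exact (mem_maximalIdeal _).mp h1

theorem isRegular_varSeq [IsDomain R] [IsLocalRing R] [IsNoetherianRing R] {ϖ : R}
    (hϖ0 : ϖ ≠ 0) (hϖ : maximalIdeal R = Ideal.span {ϖ}) :
    IsRegular (MvPowerSeries (Fin r) R) (varSeq R r ϖ) := by
  refine IsRegular.of_isWeaklyRegular_of_mem_maximalIdeal _ ?_ (isWeaklyRegular_varSeq hϖ0)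
  intro a ha
  rw [maximalIdeal_eq_ofList_varSeq hϖ]
  exact Ideal.subset_span ha

/-- The power series ring in `r` variables over a discrete valuation ring (more generally a
Noetherian local domain with principal maximal ideal generated by a nonzero element) is a regular
local ring whose maximal ideal needs exactly `r + 1` generators. -/
theorem isRegularLocalRing_mvPowerSeries [IsDomain R] [IsLocalRing R] [IsNoetherianRing R]
    {ϖ : R} (hϖ0 : ϖ ≠ 0) (hϖ : maximalIdeal R = Ideal.span {ϖ}) :
    IsRegularLocalRing (MvPowerSeries (Fin r) R) ∧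
      (maximalIdeal (MvPowerSeries (Fin r) R)).spanFinrank = r + 1 := by
  classical
  have hreg := isRegular_varSeq (r := r) hϖ0 hϖ
  have hdim := ringKrullDim_add_length_eq_ringKrullDim_of_isRegular _ hreg
  rw [varSeq_length] at hdim
  have hmax := maximalIdeal_eq_ofList_varSeq (r := r) hϖ
  -- the quotient by the maximal ideal is nontrivial, so has nonnegative dimension
  have hnt : Nontrivial (MvPowerSeries (Fin r) R ⧸ Ideal.ofList (varSeq R r ϖ)) := by
    rw [← hmax]
    exact Ideal.Quotient.nontrivial_iff.mpr (Ideal.IsMaximal.ne_top inferInstance)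
  have hge : ((r + 1 : ℕ) : WithBot ℕ∞) ≤ ringKrullDim (MvPowerSeries (Fin r) R) := by
    rw [← hdim]
    have h0 : (0 : WithBot ℕ∞) ≤
        ringKrullDim (MvPowerSeries (Fin r) R ⧸ Ideal.ofList (varSeq R r ϖ)) :=
      ringKrullDim_nonneg_of_nontrivial
    calc ((r + 1 : ℕ) : WithBot ℕ∞) = 0 + ((r + 1 : ℕ) : WithBot ℕ∞) := by rw [zero_add]
      _ ≤ _ := add_le_add_left h0 _
  have hle : (maximalIdeal (MvPowerSeries (Fin r) R)).spanFinrank ≤ r + 1 := by
    rw [hmax]
    have hset : {a | a ∈ varSeq R r ϖ} = ((varSeq R r ϖ).toFinset : Set _) := by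
      ext a
      simp
    refine (Submodule.spanFinrank_span_le_ncard_of_finite (hset ▸ Finset.finite_toSet _)).trans ?_
    rw [hset, Set.ncard_coe_finset]
    exact (List.toFinset_card_le _).trans (by simp)
  have hregular : IsRegularLocalRing (MvPowerSeries (Fin r) R) :=
    IsRegularLocalRing.of_spanFinrank_maximalIdeal_le _
      ((by exact_mod_cast hle : ((maximalIdeal (MvPowerSeries (Fin r) R)).spanFinrank :
        WithBot ℕ∞) ≤ ((r + 1 : ℕ) : WithBot ℕ∞)).trans hge)
  refine ⟨hregular, le_antisymm hle ?_⟩
  have h1 := hregular.spanFinrank_maximalIdeal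
  rw [← h1] at hge
  exact_mod_cast hge

end Seq

end Fermat.Agent.H5
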