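import Fermat.Prelude.Def_Algebra_PatchingDatum
import Fermat.Agent.Lib.H5.PowerSeriesRegular

/-!
# Freeness of the patched module at a level with trivial relation ideal

For a patching level `L` with relation ideal `⊥`, the module `L.N` is a finite free module over
the power series ring via `L.φ`; by the depth argument it is then free over the power series
ring itself.
-/

set_option autoImplicit false

namespace Fermat.Agent.H5

open IsLocalRing RingTheory.Sequence

variable {𝒪 : Type} [CommRing 𝒪] {r : ℕ} {R : Type} [CommRing R] [Algebra 𝒪 R]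
  {M : Type} [AddCommGroup M] [Module R M]
  (L : Algebra.PatchingLevel 𝒪 r R M ⊥)

/-- The coordinate map `c ↦ ∑ i, φ (c i) • b i`. -/
noncomputable def coordHom : (Fin L.d → MvPowerSeries (Fin r) 𝒪) →+ L.N where
  toFun c := ∑ i, L.φ (c i) • L.b i
  map_zero' := by simp
  map_add' := by
    intro c c'
    simp [add_smul, Finset.sum_add_distrib]

theorem coordHom_apply (c : Fin L.d → MvPowerSeries (Fin r) 𝒪) :
    coordHom L c = ∑ i, L.φ (c i) • L.b i := rfl

theorem coordHom_bijective : Function.Bijective (coordHom L) := by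
  constructor
  · rw [injective_iff_map_eq_zero]
    intro c hc
    have h := (L.b_rel c).mp hc
    funext i
    simpa using h i
  · intro x
    obtain ⟨c, hc⟩ := L.b_span x
    exact ⟨c, hc.symm⟩

/-- The coordinate isomorphism (additive, semilinear along `L.φ`). -/
noncomputable def coordEquiv : L.N ≃+ (Fin L.d → MvPowerSeries (Fin r) 𝒪) :=
  (AddEquiv.ofBijective (coordHom L) (coordHom_bijective L)).symm

theorem coordHom_coordEquiv (x : L.N) : coordHom L (coordEquiv L x) = x :=
  (AddEquiv.ofBijective (coordHom L) (coordHom_bijective L)).apply_symm_apply x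

theorem coordEquiv_coordHom (c : Fin L.d → MvPowerSeries (Fin r) 𝒪) :
    coordEquiv L (coordHom L c) = c :=
  (AddEquiv.ofBijective (coordHom L) (coordHom_bijective L)).symm_apply_apply c

theorem coordHom_smul (a : MvPowerSeries (Fin r) 𝒪) (c : Fin L.d → MvPowerSeries (Fin r) 𝒪) :
    coordHom L (a • c) = L.φ a • coordHom L c := by
  simp [coordHom_apply, Finset.smul_sum, mul_smul]

theorem coordEquiv_smul (a : MvPowerSeries (Fin r) 𝒪) (x : L.N) :
    coordEquiv L (L.φ a • x) = a • coordEquiv L x := by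
  conv_lhs => rw [← coordHom_coordEquiv L x, ← coordHom_smul, coordEquiv_coordHom]

theorem finite_N : Module.Finite (MvPowerSeries (Fin r) 𝒪) L.N := by
  refine Module.finite_def.mpr (Submodule.fg_def.mpr ⟨Set.range L.b, Set.finite_range _, ?_⟩)
  rw [eq_top_iff]
  intro x _
  obtain ⟨c, hc⟩ := L.b_span x
  rw [hc]
  exact Submodule.sum_mem _ fun i _ =>
    Submodule.smul_mem _ _ (Submodule.subset_span (Set.mem_range_self i))

theorem nontrivial_N [Nontrivial M] : Nontrivial L.N := by
  by_contra h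
  rw [not_nontrivial_iff_subsingleton] at h
  obtain ⟨m, m', hmm'⟩ := exists_pair_ne M
  obtain ⟨x, rfl⟩ := L.π_surjective m
  obtain ⟨x', rfl⟩ := L.π_surjective m'
  exact hmm' (by rw [Subsingleton.elim x x'])

theorem φ_X_mem_maximalIdeal [IsLocalRing 𝒪] [Nontrivial M] (i : Fin r) :
    L.φ (MvPowerSeries.X i) ∈ maximalIdeal (MvPowerSeries (Fin r) 𝒪) := by
  rw [mem_maximalIdeal, mem_nonunits_iff]
  intro hu
  have h1 : IsUnit (L.ψ (L.φ (MvPowerSeries.X i))) := hu.map L.ψ
  rw [L.ψ_φ_X i] at h1
  have h2 : Subsingleton R := by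
    rw [← not_nontrivial_iff_subsingleton]
    intro hnt
    exact not_isUnit_zero h1
  have h3 : Subsingleton M := Module.subsingleton R M
  exact not_subsingleton M h3

section DVR

variable [IsDomain 𝒪] [IsDiscreteValuationRing 𝒪] [Nontrivial M]

/-- The patched module `L.N` is free over the power series ring. -/
theorem free_N : Module.Free (MvPowerSeries (Fin r) 𝒪) L.N := by
  obtain ⟨ϖ, hirr⟩ := IsDiscreteValuationRing.exists_irreducible 𝒪
  have hϖ0 : ϖ ≠ 0 := hirr.ne_zero
  have hϖ : maximalIdeal 𝒪 = Ideal.span {ϖ} := hirr.maximalIdeal_eq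
  obtain ⟨hregular, hspan⟩ := isRegularLocalRing_mvPowerSeries (r := r) hϖ0 hϖ
  have := hregular
  have := finite_N L
  have := nontrivial_N L
  -- the regular sequence on `L.N`
  have hw0 : IsWeaklyRegular (MvPowerSeries (Fin r) 𝒪) (varSeq 𝒪 r ϖ) := isWeaklyRegular_varSeq hϖ0
  have hw1 : IsWeaklyRegular (Fin L.d → MvPowerSeries (Fin r) 𝒪) (varSeq 𝒪 r ϖ) := by
    have h := hw0.isWeaklyRegular_lTensor (M₂ := Fin L.d → MvPowerSeries (Fin r) 𝒪)
    exact (LinearEquiv.isWeaklyRegular_congr
      (TensorProduct.rid (MvPowerSeries (Fin r) 𝒪) (Fin L.d → MvPowerSeries (Fin r) 𝒪)) _).mp h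
  have hw2 : IsWeaklyRegular L.N ((varSeq 𝒪 r ϖ).map L.φ) := by
    refine (AddEquiv.isWeaklyRegular_congr (e := coordEquiv L) ?_).mpr hw1
    rw [List.forall₂_map_left_iff]
    exact List.forall₂_same.mpr fun a _ x => coordEquiv_smul L a x
  have hmem : ∀ a ∈ (varSeq 𝒪 r ϖ).map L.φ, a ∈ maximalIdeal (MvPowerSeries (Fin r) 𝒪) := by
    intro a ha
    obtain ⟨a', ha', rfl⟩ := List.mem_map.mp ha
    rw [varSeq, List.mem_append, List.mem_ofFn, List.mem_singleton] at ha'
    rcases ha' with ⟨j, rfl⟩ | rfl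
    · exact φ_X_mem_maximalIdeal L j
    · have h1 : L.φ (MvPowerSeries.C ϖ) = MvPowerSeries.C ϖ := by
        rw [MvPowerSeries.c_eq_algebraMap]
        exact L.φ.commutes ϖ
      rw [h1, maximalIdeal_eq_ofList_varSeq hϖ]
      exact Ideal.subset_span (by simp [varSeq])
  have hreg : IsRegular L.N ((varSeq 𝒪 r ϖ).map L.φ) :=
    IsRegular.of_isWeaklyRegular_of_mem_maximalIdeal _ hmem hw2
  exact free_of_isRegular (by rw [List.length_map, varSeq_length, hspan]) hmem hreg

end DVR

end Fermat.Agent.H5
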